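import Fermat.Agent.S43
import Fermat.Agent.S44
import Fermat.Agent.Newform.Independence

/-!
From a squarefree level down to level two.
-/

set_option autoImplicit false

open WeierstrassCurve WeierstrassCurve.Affine WeierstrassCurve.Affine.Point
open CongruenceSubgroup ModularFormClass

namespace Fermat.Agent.LL

/-- Every odd prime and `p` can be removed from a conductor level. -/
theorem exists_level_dvd_two (P : FreyPackage)
    (hirr : GaloisRepIsIrreducible (K := AlgebraicClosure ℚ) ℚ P.freyCurve P.p) :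
    ∀ N : ℕ, P.IsConductorLevel N → P.ModularRepOfLevel N →
      ∃ M : ℕ, M ∣ 2 ∧ P.ModularRepOfLevel M := by
  intro N
  induction N using Nat.strong_induction_on with
  | _ N ih =>
    intro hcond hmod
    have step : ∀ M : ℕ, M ∣ N → M ≠ N → P.ModularRepOfLevel M →
        ∃ M' : ℕ, M' ∣ 2 ∧ P.ModularRepOfLevel M' := fun M hMN hne hM => by
      have hM0 : 0 < M := Nat.pos_of_dvd_of_pos hMN hcond.pos
      exact ih M (lt_of_le_of_ne (Nat.le_of_dvd hcond.pos hMN) hne) (hcond.of_dvd hMN hM0) hM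
    by_cases hpN : P.p ∣ N
    · obtain ⟨M, hMN, hpM, hM⟩ := Fermat.Agent.S44.result P hcond hpN hirr hmod
      exact step M hMN (fun h => hpM (h ▸ hpN)) hM
    · by_cases hodd : ∃ q : ℕ, q.Prime ∧ q ≠ 2 ∧ q ∣ N
      · obtain ⟨q, hq, hq2, hqN⟩ := hodd
        obtain ⟨M, hMN, hqM, hM⟩ := exists_lower_prime P hq hq2 hirr N hcond hpN hmod hqN
        exact step M hMN (fun h => hqM (h ▸ hqN)) hM
      · push Not at hodd
        refine ⟨N, ?_, hmod⟩
        rw [← Nat.prod_primeFactors_of_squarefree hcond.squarefree]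
        refine (Finset.prod_dvd_prod_of_subset _ {2} (fun x => x) fun q hq => ?_).trans
          (by rw [Finset.prod_singleton])
        obtain ⟨hqp, hqN, -⟩ := Nat.mem_primeFactors.1 hq
        exact Finset.mem_singleton.2 (by_contra fun h2 => hodd q hqp h2 hqN)

/-- A curve modular of a conductor level with irreducible `p`-torsion leaves a cusp form of level
two. -/
theorem exists_cuspForm_two_of_conductorLevel (P : FreyPackage)
    (hirr : GaloisRepIsIrreducible (K := AlgebraicClosure ℚ) ℚ P.freyCurve P.p)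
    {W : WeierstrassCurve ℤ} (hW : W.IsIntegralModelOf P.freyCurve) {N : ℕ}
    (hcond : P.IsConductorLevel N) (hN : W.IsModularModelOfLevel N) :
    ∃ f : CuspForm (CongruenceSubgroup.Gamma0 2) 2, f ≠ 0 := by
  obtain ⟨g, hg, hgW⟩ := hN
  obtain ⟨𝔪, hmax, hpm⟩ := FLTPrelim.exists_maximalIdeal_natCast_prime_mem P.pp
  have hmod : P.ModularRepOfLevel N := ⟨g, W, 𝔪, hg, hW, hmax, hpm, fun ℓ hℓ hgood hℓN _ =>
    ⟨((W.apOfModel ℓ : ℤ) : integralClosure ℤ ℂ), by
      rw [hgW ℓ hℓ hgood hℓN]
      norm_cast, by simp⟩⟩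
  obtain ⟨M, hM2, f, -, -, hf, -⟩ := exists_level_dvd_two P hirr N hcond hmod
  have : NeZero M := ⟨fun h => by simp [h] at hM2⟩
  obtain ⟨f', hf', -⟩ := Fermat.Agent.Newform.exists_eigenform_of_dvd hM2 hf
  refine ⟨f', fun h => ?_⟩
  have h1 := hf'.qCoeff_one
  rw [h] at h1
  simp [ModularFormClass.qCoeff, UpperHalfPlane.qExpansion_zero] at h1

end Fermat.Agent.LL
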